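import Fermat.Agent.S24.Gen

/-!
# S24, piece `Sturm`, algebraic end

If any `n + 1` elements `phiF p_i` of the function field satisfy a nontrivial linear relation with
coefficients in `ℚ̄[j]`, then `[F_N : ℚ̄(j)] ≤ n`.
-/

set_option autoImplicit false

open AlgebraicCurve ModularCurve UpperHalfPlane
open scoped MatrixGroups IntermediateField Manifold

namespace Fermat.Agent.S24.Sturm

noncomputable section

variable (N : ℕ) [NeZero N]

/-- The hypothesis produced by the Sturm bound argument. -/
def Dependence (n : ℕ) : Prop :=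
  ∀ p : Fin (n + 1) → MvPolynomial (Dv N) Kb,
    ∃ a : Fin (n + 1) → Polynomial Kb, a ≠ 0 ∧
      ∑ i, Polynomial.aeval (jN N) (a i) * phiF N (p i) = 0

variable {N}

theorem not_linearIndependent {n : ℕ} (h : Dependence N n) (v : Fin (n + 1) → FN N) :
    ¬ LinearIndependent Kb⟮jN N⟯ v := by
  intro hv
  choose p q hq hpq using fun i => exists_phiF_div N (v i)
  obtain ⟨a, ha, hsum⟩ := h fun i => p i * ∏ k ∈ Finset.univ.erase i, q k
  have hQ : phiF N (∏ k, q k) ≠ 0 := by
    rw [map_prod]
    exact Finset.prod_ne_zero_iff.mpr fun i _ => hq i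
  have hvi : ∀ i, phiF N (p i * ∏ k ∈ Finset.univ.erase i, q k) = v i * phiF N (∏ k, q k) := by
    intro i
    rw [← Finset.mul_prod_erase Finset.univ q (Finset.mem_univ i), map_mul, map_mul, hpq i]
    field_simp [hq i]
  have hsum' : ∑ i, Polynomial.aeval (jN N) (a i) * v i = 0 := by
    have : (∑ i, Polynomial.aeval (jN N) (a i) * v i) * phiF N (∏ k, q k) = 0 := by
      rw [Finset.sum_mul, ← hsum]
      refine Finset.sum_congr rfl fun i _ => ?_
      rw [hvi i, mul_assoc]
    exact (mul_eq_zero.mp this).resolve_right hQ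
  rw [Fintype.linearIndependent_iff] at hv
  have h0 := hv (fun i => Polynomial.aeval (IntermediateField.AdjoinSimple.gen Kb (jN N)) (a i)) (by
    rw [← hsum']
    refine Finset.sum_congr rfl fun i _ => ?_
    rw [Algebra.smul_def]
    congr 1
    exact IntermediateField.AdjoinSimple.coe_aeval_gen_apply _ _ _)
  apply ha
  funext i
  have h1 : Polynomial.aeval (jN N) (a i) = 0 := by
    rw [← IntermediateField.AdjoinSimple.coe_aeval_gen_apply, h0 i]
    rfl
  exact (transcendental_iff.mp (transcendental_jN N)) _ h1

theorem rank_le_of_dependence {n : ℕ} (h : Dependence N n) :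
    Module.rank Kb⟮jN N⟯ (FN N) ≤ n := by
  refine rank_le fun s hs => ?_
  by_contra hcard
  rw [not_le] at hcard
  have hc : n + 1 ≤ Fintype.card s := by simpa using hcard
  obtain ⟨e⟩ : Nonempty (Fin (n + 1) ↪ s) :=
    Function.Embedding.nonempty_of_card_le (by simpa using hc)
  exact not_linearIndependent h _ (hs.comp e e.injective)

theorem finiteDimensional_of_dependence {n : ℕ} (h : Dependence N n) :
    FiniteDimensional Kb⟮jN N⟯ (FN N) := by
  have hfree : Module.Free Kb⟮jN N⟯ (FN N) := Module.Free.of_divisionRing _ _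
  rw [FiniteDimensional, ← Module.rank_lt_aleph0_iff]
  exact lt_of_le_of_lt (rank_le_of_dependence h) (Cardinal.natCast_lt_aleph0)

theorem finrank_le_of_dependence {n : ℕ} (h : Dependence N n) :
    Module.finrank Kb⟮jN N⟯ (FN N) ≤ n := by
  have := finiteDimensional_of_dependence h
  have := rank_le_of_dependence h
  rw [← Module.finrank_eq_rank] at this
  exact_mod_cast this

end

end Fermat.Agent.S24.Sturm
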