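import Fermat.Agent.S24.Defs
import Fermat.Prelude.Def_ModularForm_HeckeOperator
import Fermat.Prelude.Thm_CongruenceSubgroup_one_mem_strictPeriods_Gamma0

/-!
# S24, piece `Sturm`: the modular forms `E₄(dτ)³`, `Δ(dτ)` on `Γ₀(N)`
-/

set_option autoImplicit false

open AlgebraicCurve ModularCurve UpperHalfPlane ModularForm Filter Topology
open scoped MatrixGroups IntermediateField Manifold

namespace Fermat.Agent.S24.Sturm

noncomputable section

/-- `Γ₀(N)` as a subgroup of `GL₂(ℝ)`. -/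
abbrev G0 (N : ℕ) : Subgroup (GL (Fin 2) ℝ) :=
  Subgroup.map (Matrix.SpecialLinearGroup.mapGL ℝ) (CongruenceSubgroup.Gamma0 N)

/-- `F` is the underlying function of a modular form of weight `k` on `Γ₀(N)`. -/
def IsMF (N : ℕ) (k : ℤ) (F : ℍ → ℂ) : Prop :=
  ∃ f : ModularForm (G0 N) k, ⇑f = F

section closure

variable {N : ℕ}

theorem IsMF.add {k : ℤ} {F G : ℍ → ℂ} (hF : IsMF N k F) (hG : IsMF N k G) :
    IsMF N k (F + G) := by
  obtain ⟨f, rfl⟩ := hF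
  obtain ⟨g, rfl⟩ := hG
  exact ⟨f + g, rfl⟩

theorem IsMF.zero (k : ℤ) : IsMF N k 0 := ⟨0, rfl⟩

theorem IsMF.cast {k k' : ℤ} {F : ℍ → ℂ} (h : k = k') (hF : IsMF N k F) : IsMF N k' F := h ▸ hF

theorem IsMF.one : IsMF N 0 1 := ⟨1, one_coe_eq_one⟩

theorem IsMF.mul {k k' : ℤ} {F G : ℍ → ℂ} (hF : IsMF N k F) (hG : IsMF N k' G) :
    IsMF N (k + k') (F * G) := by
  obtain ⟨f, rfl⟩ := hF
  obtain ⟨g, rfl⟩ := hG
  exact ⟨f.mul g, rfl⟩

theorem IsMF.smul {k : ℤ} {F : ℍ → ℂ} (c : ℂ) (hF : IsMF N k F) : IsMF N k (c • F) := by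
  obtain ⟨f, rfl⟩ := hF
  exact ⟨c • f, rfl⟩

theorem IsMF.pow {k : ℤ} {F : ℍ → ℂ} (hF : IsMF N k F) (n : ℕ) : IsMF N (k * n) (F ^ n) := by
  induction n with
  | zero => simpa using IsMF.one
  | succ n ih =>
    rw [pow_succ]
    exact (ih.mul hF).cast (by push_cast; ring)

theorem IsMF.prod {ι : Type*} {k : ℤ} {F : ι → ℍ → ℂ} (s : Finset ι)
    (hF : ∀ i ∈ s, IsMF N k (F i)) : IsMF N (k * s.card) (∏ i ∈ s, F i) := by
  classical
  induction s using Finset.induction_on with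
  | empty => simpa using IsMF.one
  | insert a s ha ih =>
    rw [Finset.prod_insert ha, Finset.card_insert_of_notMem ha]
    exact ((hF a (Finset.mem_insert_self a s)).mul
      (ih fun i hi => hF i (Finset.mem_insert_of_mem hi))).cast (by push_cast; ring)

theorem IsMF.sum {ι : Type*} {k : ℤ} {F : ι → ℍ → ℂ} (s : Finset ι)
    (hF : ∀ i ∈ s, IsMF N k (F i)) : IsMF N k (∑ i ∈ s, F i) := by
  classical
  induction s using Finset.induction_on with
  | empty => simpa using IsMF.zero k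
  | insert a s ha ih =>
    rw [Finset.sum_insert ha]
    exact (hF a (Finset.mem_insert_self a s)).add
      (ih fun i hi => hF i (Finset.mem_insert_of_mem hi))

theorem IsMF.mdiff {k : ℤ} {F : ℍ → ℂ} (hF : IsMF N k F) : MDiff F := by
  obtain ⟨f, rfl⟩ := hF
  exact f.holo'

theorem IsMF.periodic {k : ℤ} {F : ℍ → ℂ} (hF : IsMF N k F) :
    Function.Periodic (F ∘ ofComplex) (((1 : ℕ) : ℝ) : ℂ) := by
  obtain ⟨f, rfl⟩ := hF
  have := SlashInvariantFormClass.periodic_comp_ofComplex f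
    (CongruenceSubgroup.one_mem_strictPeriods_Gamma0 N)
  simpa using this

theorem IsMF.bounded [NeZero N] {k : ℤ} {F : ℍ → ℂ} (hF : IsMF N k F) :
    IsBoundedAtImInfty F := by
  obtain ⟨f, rfl⟩ := hF
  exact ModularFormClass.bdd_at_infty f

end closure

section levelRaise

theorem SL_det_eq (γ : SL(2, ℤ)) : γ 0 0 * γ 1 1 - γ 0 1 * γ 1 0 = 1 := by
  have := γ.det_coe
  rwa [Matrix.det_fin_two] at this

/-- For `γ = (a b; c δ) ∈ Γ₀(N)` and `d ∣ N`, the matrix `(a, d b; c / d, δ)`. -/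
theorem exists_conj_of_mem_Gamma0 (N d : ℕ) [NeZero d] (hdN : d ∣ N) (γ : SL(2, ℤ))
    (hγ : γ ∈ CongruenceSubgroup.Gamma0 N) :
    ∃ γ' : SL(2, ℤ), heckeDiagMatrix d * Matrix.SpecialLinearGroup.mapGL ℝ γ =
      Matrix.SpecialLinearGroup.mapGL ℝ γ' * heckeDiagMatrix d := by
  have hd : d ≠ 0 := NeZero.ne d
  rw [CongruenceSubgroup.Gamma0_mem] at hγ
  have hN : (N : ℤ) ∣ γ 1 0 := (ZMod.intCast_zmod_eq_zero_iff_dvd _ _).mp hγ
  obtain ⟨c', hc'⟩ : (d : ℤ) ∣ γ 1 0 := (Int.natCast_dvd_natCast.mpr hdN).trans hN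
  have hdet := SL_det_eq γ
  have hdet' : (!![γ 0 0, d * γ 0 1; c', γ 1 1] : Matrix (Fin 2) (Fin 2) ℤ).det = 1 := by
    rw [Matrix.det_fin_two_of]
    rw [hc'] at hdet
    linarith
  obtain ⟨γ', hγ'⟩ : ∃ g : SL(2, ℤ), (g : Matrix (Fin 2) (Fin 2) ℤ) =
      !![γ 0 0, d * γ 0 1; c', γ 1 1] := ⟨⟨_, hdet'⟩, rfl⟩
  refine ⟨γ', ?_⟩
  apply Units.ext
  rw [Units.val_mul, Units.val_mul, val_heckeDiagMatrix hd]
  ext i j
  fin_cases i <;> fin_cases j <;>
    simp [Matrix.mul_apply, Fin.sum_univ_two, hc', mul_comm, hγ']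

open ConjAct Pointwise in
theorem G0_le_conj (N d : ℕ) [NeZero d] (hdN : d ∣ N) :
    G0 N ≤ toConjAct (heckeDiagMatrix d)⁻¹ • 𝒮ℒ := by
  rintro _ ⟨γ, hγ, rfl⟩
  obtain ⟨γ', hγ'⟩ := exists_conj_of_mem_Gamma0 N d hdN γ hγ
  rw [Subgroup.mem_pointwise_smul_iff_inv_smul_mem, ← map_inv, inv_inv, ConjAct.toConjAct_smul,
    hγ', mul_inv_cancel_right]
  exact ⟨γ', rfl⟩

theorem heckeDiagMatrix_smul_eq (d : ℕ) [NeZero d] (τ : ℍ) : heckeDiagMatrix d • τ = mulH d τ := by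
  apply UpperHalfPlane.ext
  rw [coe_heckeDiagMatrix_smul (NeZero.ne d)]
  rfl

/-- `f(dτ)` is a modular form on `Γ₀(N)` for `d ∣ N` and `f` of level one. -/
theorem isMF_comp_mulH (N d : ℕ) [NeZero d] (hdN : d ∣ N) {k : ℤ} (f : ModularForm 𝒮ℒ k) :
    IsMF N k (fun τ => f (mulH d τ)) := by
  have h1 : IsMF N k (⇑f ∣[k] heckeDiagMatrix d) :=
    ⟨{ toFun := ⇑f ∣[k] heckeDiagMatrix d
       slash_action_eq' := fun γ hγ =>
        (translate f (heckeDiagMatrix d)).slash_action_eq' γ (G0_le_conj N d hdN hγ)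
       holo' := (translate f (heckeDiagMatrix d)).holo'
       bdd_at_cusps' := fun hc =>
        (translate f (heckeDiagMatrix d)).bdd_at_cusps' (hc.mono (G0_le_conj N d hdN)) }, rfl⟩
  have hd : (d : ℂ) ≠ 0 := by exact_mod_cast NeZero.ne d
  have h2 := h1.smul (((d : ℂ) ^ (k - 1))⁻¹)
  convert h2 using 1
  funext τ
  rw [Pi.smul_apply, slash_heckeDiagMatrix_apply k (NeZero.ne d), heckeDiagMatrix_smul_eq,
    smul_eq_mul, inv_mul_cancel_left₀ (zpow_ne_zero _ hd)]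

end levelRaise

/-- `E₄(dτ)³`. -/
def Ad (d : ℕ) [NeZero d] : ℍ → ℂ := fun τ => (E₄ (mulH d τ)) ^ 3

/-- `Δ(dτ)`. -/
def Bd (d : ℕ) [NeZero d] : ℍ → ℂ := fun τ => ModularForm.discriminant (mulH d τ)

theorem isMF_Ad (N d : ℕ) [NeZero d] (hdN : d ∣ N) : IsMF N 12 (Ad d) :=
  ((isMF_comp_mulH N d hdN E₄).pow 3).cast (by norm_num)

theorem isMF_Bd (N d : ℕ) [NeZero d] (hdN : d ∣ N) : IsMF N 12 (Bd d) :=
  isMF_comp_mulH N d hdN (CuspForm.discriminant : ModularForm 𝒮ℒ 12)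

theorem Bd_ne_zero (d : ℕ) [NeZero d] (τ : ℍ) : Bd d τ ≠ 0 := discriminant_ne_zero _

theorem jd_mul_Bd (d : ℕ) [NeZero d] : jd d * Bd d = Ad d := by
  funext τ
  simp only [Pi.mul_apply, jd, jfun, Bd, Ad]
  exact div_mul_cancel₀ _ (discriminant_ne_zero _)

section order

/-- `f τ · q^{-k} → 1` as `Im τ → ∞`. -/
def HasOrd (f : ℍ → ℂ) (k : ℤ) : Prop :=
  Tendsto (fun τ : ℍ => f τ * qh 1 τ ^ (-k)) atImInfty (𝓝 1)

theorem qh_ne_zero (h : ℕ) (τ : ℍ) : qh h τ ≠ 0 := Complex.exp_ne_zero _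

theorem HasOrd.one : HasOrd 1 0 := by
  simp [HasOrd]

theorem HasOrd.mul {f g : ℍ → ℂ} {k l : ℤ} (hf : HasOrd f k) (hg : HasOrd g l) :
    HasOrd (f * g) (k + l) := by
  have h := Tendsto.mul hf hg
  rw [one_mul] at h
  refine h.congr fun τ => ?_
  rw [Pi.mul_apply, neg_add, zpow_add₀ (qh_ne_zero 1 τ)]
  ring

theorem HasOrd.cast {f : ℍ → ℂ} {k l : ℤ} (h : k = l) (hf : HasOrd f k) : HasOrd f l := h ▸ hf

theorem HasOrd.pow {f : ℍ → ℂ} {k : ℤ} (hf : HasOrd f k) (n : ℕ) : HasOrd (f ^ n) (k * n) := by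
  induction n with
  | zero => simpa using HasOrd.one
  | succ n ih =>
    rw [pow_succ]
    exact (ih.mul hf).cast (by push_cast; ring)

theorem HasOrd.prod {ι : Type*} {F : ι → ℍ → ℂ} {k : ι → ℤ} (s : Finset ι)
    (hF : ∀ i ∈ s, HasOrd (F i) (k i)) : HasOrd (∏ i ∈ s, F i) (∑ i ∈ s, k i) := by
  classical
  induction s using Finset.induction_on with
  | empty => simpa using HasOrd.one
  | insert a s ha ih =>
    rw [Finset.prod_insert ha, Finset.sum_insert ha]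
    exact (hF a (Finset.mem_insert_self a s)).mul
      (ih fun i hi => hF i (Finset.mem_insert_of_mem hi))

theorem tendsto_mulH (d : ℕ) [NeZero d] : Tendsto (mulH d) atImInfty atImInfty := by
  have h : Tendsto (fun τ : ℍ => heckeDiagMatrix d • τ) atImInfty atImInfty :=
    tendsto_smul_atImInfty (by simp [val_heckeDiagMatrix (NeZero.ne d)])
  exact h.congr fun τ => heckeDiagMatrix_smul_eq d τ

theorem qParam_mulH (d : ℕ) [NeZero d] (τ : ℍ) :
    Function.Periodic.qParam 1 ((mulH d τ : ℍ) : ℂ) = qh 1 τ ^ d := by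
  rw [qh, Function.Periodic.qParam, Function.Periodic.qParam, ← Complex.exp_nat_mul]
  congr 1
  simp only [mulH, UpperHalfPlane.coe_mk]
  push_cast
  ring

theorem hasOrd_Bd (d : ℕ) [NeZero d] : HasOrd (Bd d) d := by
  have h := tendsto_atImInfty_tprod_one_sub_eta_q_pow.comp (tendsto_mulH d)
  refine h.congr fun τ => ?_
  rw [Function.comp_apply, Bd, discriminant_eq_q_prod, qParam_mulH, zpow_neg, zpow_natCast]
  field_simp [qh_ne_zero 1 τ]

end order

section poly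

variable (N : ℕ) [NeZero N]

/-- The divisors of `N` form a finite type. -/
@[instance_reducible]
def fintypeDv : Fintype (Dv N) :=
  Fintype.subtype N.divisors fun d => by simp [Nat.mem_divisors, NeZero.ne N]

attribute [local instance] fintypeDv

/-- `∏_{d ∣ N} Δ(dτ)`. -/
def PiB : ℍ → ℂ := ∏ d : Dv N, Bd d.1

/-- The number of divisors of `N`. -/
def w0 : ℕ := Fintype.card (Dv N)

/-- The sum of the divisors of `N`. -/
def m0 : ℤ := ∑ d : Dv N, (d.1 : ℤ)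

theorem isMF_PiB : IsMF N (12 * w0 N) (PiB N) :=
  IsMF.prod (F := fun d : Dv N => Bd d.1) Finset.univ fun d _ => isMF_Bd N d.1 d.2

theorem hasOrd_PiB : HasOrd (PiB N) (m0 N) :=
  HasOrd.prod Finset.univ fun d _ => hasOrd_Bd d.1

theorem isMF_jd_mul_PiB (d : Dv N) : IsMF N (12 * w0 N) (jd d.1 * PiB N) := by
  have h1 : jd d.1 * PiB N = Ad d.1 * ∏ e ∈ Finset.univ.erase d, Bd e.1 := by
    rw [PiB, ← Finset.mul_prod_erase Finset.univ (fun e : Dv N => Bd e.1) (Finset.mem_univ d),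
      ← mul_assoc, jd_mul_Bd]
  rw [h1]
  refine ((isMF_Ad N d.1 d.2).mul
    (IsMF.prod (Finset.univ.erase d) fun e _ => isMF_Bd N e.1 e.2)).cast ?_
  have hc : (Finset.univ.erase d).card + 1 = w0 N :=
    Finset.card_erase_add_one (Finset.mem_univ d)
  rw [← hc]
  push_cast
  ring

theorem exists_isMF_phiH (p : MvPolynomial (Dv N) Kb) :
    ∃ D0 : ℕ, ∀ D : ℕ, D0 ≤ D → IsMF N (12 * w0 N * D) (PiB N ^ D * phiH N p) := by
  induction p using MvPolynomial.induction_on with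
  | C a =>
    refine ⟨0, fun D _ => ?_⟩
    have h : PiB N ^ D * phiH N (MvPolynomial.C a) = iotaC a • PiB N ^ D := by
      funext τ
      simp only [phiH, MvPolynomial.aeval_C, Pi.mul_apply, Pi.smul_apply, smul_eq_mul,
        Pi.algebraMap_apply]
      rw [mul_comm]
      rfl
    rw [h]
    exact ((isMF_PiB N).pow D).smul _
  | add p q hp hq =>
    obtain ⟨D1, h1⟩ := hp
    obtain ⟨D2, h2⟩ := hq
    refine ⟨max D1 D2, fun D hD => ?_⟩
    rw [map_add, mul_add]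
    exact (h1 D (le_trans (le_max_left _ _) hD)).add (h2 D (le_trans (le_max_right _ _) hD))
  | mul_X p d hp =>
    obtain ⟨D1, h1⟩ := hp
    refine ⟨D1 + 1, fun D hD => ?_⟩
    obtain ⟨D', rfl⟩ : ∃ D', D = D' + 1 := ⟨D - 1, by omega⟩
    have h : PiB N ^ (D' + 1) * phiH N (p * MvPolynomial.X d)
        = (PiB N ^ D' * phiH N p) * (jd d.1 * PiB N) := by
      rw [map_mul, phiH, MvPolynomial.aeval_X, pow_succ]
      ring
    rw [h]
    exact ((h1 D' (by omega)).mul (isMF_jd_mul_PiB N d)).cast (by push_cast; ring)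

omit [NeZero N] in
theorem isMF_Bd_pow_mul_jd_pow (S e : ℕ) (he : e ≤ S) :
    IsMF N (12 * S) (Bd 1 ^ S * jd 1 ^ e) := by
  obtain ⟨r, rfl⟩ := Nat.exists_eq_add_of_le he
  have h : Bd 1 ^ (e + r) * jd 1 ^ e = Ad 1 ^ e * Bd 1 ^ r := by
    rw [← jd_mul_Bd, mul_pow, pow_add]
    ring
  rw [h]
  exact (((isMF_Ad N 1 (one_dvd N)).pow e).mul ((isMF_Bd N 1 (one_dvd N)).pow r)).cast
    (by push_cast; ring)

end poly

end

end Fermat.Agent.S24.Sturm
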