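import Fermat.Agent.S24.QDict
import Fermat.Agent.S24.Gen
import Fermat.Agent.S24.Sturm.Forms
import Fermat.Agent.S24.Sturm.Alg
import Fermat.Prelude.Thm_ModularForm_sturm_bound_Gamma0

/-!
# S24, piece `Sturm`: the Sturm bound argument

Any `n + 1` polynomials in the `j(dτ)`, `d ∣ N`, are linearly dependent over `ℚ̄[j]`, where
`n = [SL₂(ℤ) : Γ₀(N)]`.
-/

set_option autoImplicit false

open AlgebraicCurve ModularCurve UpperHalfPlane KaehlerDifferential Filter Topology
open scoped MatrixGroups IntermediateField Manifold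

namespace Fermat.Agent.S24.Sturm

noncomputable section

variable {N : ℕ} [NeZero N]

theorem IsMF.mem_HolCusp {k : ℤ} {F : ℍ → ℂ} (hF : IsMF N k F) : F ∈ HolCusp 1 :=
  ⟨hF.mdiff, hF.periodic, 0, by simpa using hF.bounded⟩

variable (N)

/-- Evaluation of polynomials at the `j(dτ)`, with values in `HolCusp 1`. -/
def phiHC : MvPolynomial (Dv N) Kb →ₐ[Kb] HolCusp 1 :=
  MvPolynomial.aeval fun d => ⟨jd d.1, jd_mem_HolCusp_one d.1⟩

theorem coe_phiHC (p : MvPolynomial (Dv N) Kb) : (phiHC N p : ℍ → ℂ) = phiH N p := by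
  have h : ((HolCusp 1).val.restrictScalars Kb).comp (phiHC N) = phiH N := by
    apply MvPolynomial.algHom_ext
    intro d
    simp [phiHC, phiH]
  exact congrArg (fun f => f p) h

theorem laurent_phiHC (p : MvPolynomial (Dv N) Kb) :
    laurent 1 (phiHC N p) = coeffMap iotaC ((phiF N p : FN N) : LaurentSeries Kb) := by
  have h : ((laurent 1 : HolCusp 1 →+* LaurentSeries ℂ)).comp
        (phiHC N : MvPolynomial (Dv N) Kb →+* HolCusp 1)
      = ((coeffMap iotaC).comp (algebraMap (FN N) (LaurentSeries Kb))).comp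
        (phiF N : MvPolynomial (Dv N) Kb →+* FN N) := by
    apply MvPolynomial.ringHom_ext
    · intro a
      simp only [RingHom.comp_apply, RingHom.coe_coe, ← MvPolynomial.algebraMap_eq,
        AlgHom.commutes]
      rw [IsScalarTower.algebraMap_apply Kb ℂ (HolCusp 1), AlgHom.commutes,
        ← IsScalarTower.algebraMap_apply Kb (FN N) (LaurentSeries Kb),
        algebraMap_laurentSeries_eq_single, algebraMap_laurentSeries_eq_single, coeffMap_single]
      rfl
    · intro d
      simp only [RingHom.comp_apply, RingHom.coe_coe, phiHC, phiF, MvPolynomial.aeval_X]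
      exact laurent_jd d.1
  exact congrArg (fun f => f p) h

theorem coeffMap_iotaC_ne_zero {f : LaurentSeries Kb} (hf : f ≠ 0) : coeffMap iotaC f ≠ 0 := by
  intro h
  apply hf
  ext m
  have := congrArg (fun x => x.coeff m) h
  simp only [coeffMap_coeff, HahnSeries.coeff_zero] at this
  simpa using (map_eq_zero iotaC).mp this

theorem phiH_smul_sum {A : Type} [Fintype A] (P : A → MvPolynomial (Dv N) Kb) (U : ℍ → ℂ)
    (c : A → Kb) :
    U * phiH N (∑ α, c α • P α) = ∑ α, iotaC (c α) • (U * phiH N (P α)) := by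
  rw [map_sum, Finset.mul_sum]
  refine Finset.sum_congr rfl fun α _ => ?_
  rw [map_smul]
  funext τ
  simp only [Pi.mul_apply, Pi.smul_apply, smul_eq_mul]
  rw [Algebra.smul_def, show algebraMap Kb ℂ (c α) = iotaC (c α) from rfl]
  ring

/-- The `m`-th coefficient as a linear functional on the function field. -/
def coeffL (m : ℤ) : FN N →ₗ[Kb] Kb where
  toFun x := (x : LaurentSeries Kb).coeff m
  map_add' x y := by simp
  map_smul' a x := by
    simp only [IntermediateField.coe_smul, RingHom.id_apply]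
    rw [Algebra.smul_def, algebraMap_laurentSeries_eq_single, HahnSeries.coeff_single_mul,
      sub_zero, smul_eq_mul]

/-- The Sturm bound argument: a family of more than `w n + 1` polynomials in the `j(dτ)` which
become modular forms of weight `12 w` after multiplication by a fixed `U` is linearly dependent
over `ℚ̄`. -/
theorem exists_kernel {A : Type} [Fintype A] (P : A → MvPolynomial (Dv N) Kb)
    (U : ℍ → ℂ) (w : ℕ) (M k' : ℤ) (hU : IsMF N k' U) (hM : HasOrd U M)
    (hP : ∀ α, IsMF N (12 * w) (U * phiH N (P α)))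
    (hcard : w * (CongruenceSubgroup.Gamma0 N).index + 1 < Fintype.card A) :
    ∃ c : A → Kb, c ≠ 0 ∧ phiF N (∑ α, c α • P α) = 0 := by
  classical
  set n := (CongruenceSubgroup.Gamma0 N).index with hn
  set B := w * n + 1 with hB
  let T : (A → Kb) →ₗ[Kb] (Fin B → Kb) := LinearMap.pi fun k =>
    (coeffL N ((k : ℕ) - M : ℤ)) ∘ₗ (phiF N).toLinearMap ∘ₗ (Fintype.linearCombination Kb P)
  have hker : LinearMap.ker T ≠ ⊥ := by
    apply LinearMap.ker_ne_bot_of_finrank_lt
    simpa using hcard
  obtain ⟨c, hcT, hc0⟩ := (Submodule.ne_bot_iff _).mp hker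
  refine ⟨c, hc0, ?_⟩
  by_contra hne
  set Pc := ∑ α, c α • P α with hPc
  set f : LaurentSeries Kb := ((phiF N Pc : FN N) : LaurentSeries Kb) with hf
  have hf0 : f ≠ 0 := fun h => hne (Subtype.ext h)
  have hcoeff : ∀ k : ℕ, k < B → f.coeff ((k : ℤ) - M) = 0 := by
    intro k hk
    have := congrFun (LinearMap.mem_ker.mp hcT) ⟨k, hk⟩
    simp only [T, LinearMap.pi_apply, LinearMap.comp_apply, Fintype.linearCombination_apply,
      Pi.zero_apply] at this
    exact this
  set X := coeffMap iotaC f with hX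
  have hX0 : X ≠ 0 := coeffMap_iotaC_ne_zero hf0
  -- the modular form
  have hG : IsMF N (12 * w) (U * phiH N Pc) := by
    rw [hPc, phiH_smul_sum]
    exact IsMF.sum _ fun α _ => (hP α).smul _
  obtain ⟨g, hg⟩ := hG
  have hG' : IsMF N (12 * w) (U * phiH N Pc) := ⟨g, hg⟩
  set LU := laurent 1 ⟨U, hU.mem_HolCusp⟩ with hLU
  have hLUord : LU.order = M := laurent_order_eq 1 _ M 1 one_ne_zero hM
  have hLU0 : LU ≠ 0 := by
    intro h
    have h1 : (⟨U, hU.mem_HolCusp⟩ : HolCusp 1) = 0 :=
      laurent_injective 1 (by rw [← hLU, h, map_zero])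
    have h2 : U = 0 := congrArg Subtype.val h1
    have h3 : Tendsto (fun _ : ℍ => (0 : ℂ)) atImInfty (𝓝 1) := by
      have := hM
      rw [HasOrd, h2] at this
      simp at this
    exact zero_ne_one (tendsto_nhds_unique tendsto_const_nhds h3)
  set LG := laurent 1 ⟨U * phiH N Pc, hG'.mem_HolCusp⟩ with hLG
  have hLGmul : LG = LU * X := by
    rw [hLG, hLU, hX, hf, ← laurent_phiHC, ← map_mul]
    congr 1
    apply Subtype.ext
    show U * phiH N Pc = U * (phiHC N Pc : ℍ → ℂ)
    rw [coe_phiHC]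
  have hLGps : LG = HahnSeries.ofPowerSeries ℤ ℂ (qExpansion 1 (U * phiH N Pc)) := by
    have := laurent_of_bounded 1 ⟨U * phiH N Pc, hG'.mem_HolCusp⟩ hG'.bounded
    rw [hLG, this]
    simp
  have hLG0 : LG ≠ 0 := by
    rw [hLGmul]
    exact mul_ne_zero hLU0 hX0
  have hord : LG.order = M + X.order := by
    rw [hLGmul, HahnSeries.order_mul hLU0 hX0, hLUord]
  have hLGnonneg : 0 ≤ LG.order := by
    rw [HahnSeries.le_order_iff_forall hLG0]
    intro j hj
    rw [hLGps]
    exact ofPowerSeries_coeff_of_neg _ hj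
  have hXord : (B : ℤ) - M ≤ X.order := by
    rw [HahnSeries.le_order_iff_forall hX0]
    intro j hj
    by_cases hjM : j < -M
    · exact HahnSeries.coeff_eq_zero_of_lt_order (by omega)
    · obtain ⟨k, hk⟩ : ∃ k : ℕ, (k : ℤ) = j + M := ⟨(j + M).toNat, Int.toNat_of_nonneg (by omega)⟩
      have hkB : k < B := by omega
      have := hcoeff k hkB
      rw [hX, coeffMap_coeff, show j = (k : ℤ) - M by omega, this, map_zero]
  have hg0 : g = 0 := by
    apply ModularForm.sturm_bound_Gamma0 N g
    intro m hm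
    have h12 : ((12 * (w : ℤ)) * ((CongruenceSubgroup.Gamma0 N).index : ℤ)).toNat / 12 = w * n := by
      rw [show (12 * (w : ℤ)) * ((CongruenceSubgroup.Gamma0 N).index : ℤ)
        = ((12 * (w * n) : ℕ) : ℤ) by push_cast; ring, Int.toNat_natCast,
        Nat.mul_div_cancel_left _ (by norm_num)]
    rw [h12] at hm
    rw [hg, ← HahnSeries.ofPowerSeries_apply_coeff (Γ := ℤ), ← hLGps]
    apply HahnSeries.coeff_eq_zero_of_lt_order
    omega
  apply hLG0
  have hz : (⟨U * phiH N Pc, hG'.mem_HolCusp⟩ : HolCusp 1) = 0 := by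
    apply Subtype.ext
    show U * phiH N Pc = 0
    rw [← hg, hg0]
    rfl
  rw [hLG, hz, map_zero]

theorem dependence_aux (n : ℕ) (hn : (CongruenceSubgroup.Gamma0 N).index = n) :
    Dependence N n := by
  intro p
  choose D0 hD0 using fun i => exists_isMF_phiH N (p i)
  set D := Finset.univ.sup D0 with hDdef
  have hD : ∀ i, D0 i ≤ D := fun i => Finset.le_sup (Finset.mem_univ i)
  set S := w0 N * D * n + 1 with hS
  set X1 : MvPolynomial (Dv N) Kb := MvPolynomial.X ⟨1, one_dvd N⟩ with hX1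
  set P : Fin (n + 1) × Fin (S + 1) → MvPolynomial (Dv N) Kb :=
    fun α => X1 ^ (α.2 : ℕ) * p α.1 with hPdef
  set U : ℍ → ℂ := Bd 1 ^ S * PiB N ^ D with hUdef
  have hU : IsMF N (12 * S + 12 * w0 N * D) U :=
    ((isMF_Bd N 1 (one_dvd N)).pow S).mul ((isMF_PiB N).pow D)
  have hM : HasOrd U (((1 : ℕ) : ℤ) * S + m0 N * D) :=
    ((hasOrd_Bd 1).pow S).mul ((hasOrd_PiB N).pow D)
  have hP : ∀ α, IsMF N (12 * ((S + w0 N * D : ℕ) : ℤ)) (U * phiH N (P α)) := by
    intro α
    have h : U * phiH N (P α)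
        = (Bd 1 ^ S * jd 1 ^ (α.2 : ℕ)) * (PiB N ^ D * phiH N (p α.1)) := by
      simp only [hUdef, hPdef, hX1, map_mul, map_pow, phiH, MvPolynomial.aeval_X]
      ring
    rw [h]
    exact ((isMF_Bd_pow_mul_jd_pow N S α.2 (by omega)).mul (hD0 α.1 D (hD α.1))).cast
      (by push_cast; ring)
  obtain ⟨c, hc0, hc⟩ := exists_kernel N P U (S + w0 N * D) _ _ hU hM hP (by
    simp only [Fintype.card_prod, Fintype.card_fin, hn]
    have h : (n + 1) * (S + 1) = (S + w0 N * D) * n + 1 + (n + 1) := by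
      rw [hS]; ring
    omega)
  refine ⟨fun i => ∑ e : Fin (S + 1), Polynomial.C (c (i, e)) * Polynomial.X ^ (e : ℕ), ?_, ?_⟩
  · intro h
    apply hc0
    funext ⟨i, e⟩
    have h1 := congrArg (fun a => (a i).coeff (e : ℕ)) h
    simp only [Polynomial.finsetSum_coeff, Polynomial.coeff_C_mul, Polynomial.coeff_X_pow,
      Pi.zero_apply, Polynomial.coeff_zero] at h1
    rw [Finset.sum_eq_single e] at h1
    · simpa using h1
    · intro b _ hb
      have : (e : ℕ) ≠ (b : ℕ) := fun h => hb (Fin.ext h.symm)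
      simp [this]
    · intro h; exact absurd (Finset.mem_univ e) h
  · rw [← hc, Fintype.sum_prod_type, map_sum]
    refine Finset.sum_congr rfl fun i _ => ?_
    rw [map_sum, map_sum, Finset.sum_mul]
    refine Finset.sum_congr rfl fun e _ => ?_
    simp only [hPdef, hX1, map_mul, map_pow, Polynomial.aeval_C, Polynomial.aeval_X,
      Algebra.smul_def, AlgHom.commutes]
    rw [mul_assoc, phiF, MvPolynomial.aeval_X]
    rfl

theorem dependence : Dependence N (CongruenceSubgroup.Gamma0 N).index :=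
  dependence_aux N _ rfl

end

end Fermat.Agent.S24.Sturm
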